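import Mathlib.LinearAlgebra.Matrix.NonsingularInverse
import Mathlib.LinearAlgebra.Matrix.ToLinearEquiv
import Mathlib.LinearAlgebra.Matrix.FiniteDimensional
import Mathlib.LinearAlgebra.FiniteDimensional.Basic
import Mathlib.RingTheory.LocalRing.ResidueField.Basic

/-!
# Carayol's lemma

A representation by matrices over a local ring whose trace form has invertible Gram matrix on some
family of group elements is determined up to conjugation by its trace. Over a field the hypothesis
holds as soon as the image spans the matrix algebra.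
-/

set_option autoImplicit false

namespace FLTAgent.Carayol

open Matrix

variable {ι : Type*} [Fintype ι] [DecidableEq ι] {G : Type*} [Monoid G]

section CommRing

variable {R : Type*} [CommRing R]

/-- The Gram matrix of the trace form on a family of group elements. -/
def gram (ρ : G →* Matrix ι ι R) (g : ι × ι → G) : Matrix (ι × ι) (ι × ι) R :=
  Matrix.of fun a b ↦ (ρ (g a * g b)).trace

/-- Some family of group elements has an invertible Gram matrix for the trace form. -/
def HasUnitGram (ρ : G →* Matrix ι ι R) : Prop :=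
  ∃ g : ι × ι → G, IsUnit (gram ρ g).det

omit [DecidableEq ι] in
lemma gram_congr [DecidableEq ι] {ρ₁ ρ₂ : G →* Matrix ι ι R}
    (h : ∀ x, (ρ₁ x).trace = (ρ₂ x).trace) (g : ι × ι → G) : gram ρ₁ g = gram ρ₂ g := by
  ext a b
  exact h _

lemma hasUnitGram_congr {ρ₁ ρ₂ : G →* Matrix ι ι R}
    (h : ∀ x, (ρ₁ x).trace = (ρ₂ x).trace) (h₁ : HasUnitGram ρ₁) : HasUnitGram ρ₂ := by
  obtain ⟨g, hg⟩ := h₁
  exact ⟨g, gram_congr h g ▸ hg⟩

/-- Linear combinations of the chosen family. -/
noncomputable def comb (ρ : G →* Matrix ι ι R) (g : ι × ι → G) :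
    (ι × ι → R) →ₗ[R] Matrix ι ι R :=
  Fintype.linearCombination R fun a ↦ ρ (g a)

lemma comb_apply (ρ : G →* Matrix ι ι R) (g : ι × ι → G) (c : ι × ι → R) :
    comb ρ g c = ∑ a, c a • ρ (g a) := Fintype.linearCombination_apply _ _ _

lemma trace_mul_comb (ρ : G →* Matrix ι ι R) (g : ι × ι → G) (c : ι × ι → R) (a : ι × ι) :
    (ρ (g a) * comb ρ g c).trace = (gram ρ g *ᵥ c) a := by
  simp [comb_apply, Finset.mul_sum, trace_sum, gram, mulVec, dotProduct, map_mul, mul_comm]

lemma comb_bijective {ρ : G →* Matrix ι ι R} {g : ι × ι → G} (hg : IsUnit (gram ρ g).det) :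
    Function.Bijective (comb ρ g) := by
  let M : Matrix (ι × ι) (ι × ι) R := Matrix.of fun p a ↦ ρ (g a) p.1 p.2
  let W : Matrix (ι × ι) (ι × ι) R := Matrix.of fun a p ↦ ρ (g a) p.2 p.1
  have hMW : gram ρ g = W * M := by
    ext a b
    simp only [gram, map_mul, Matrix.trace, diag, mul_apply, of_apply, W, M,
      Fintype.sum_prod_type]
    rw [Finset.sum_comm]
  have hM : IsUnit M := by
    rw [Matrix.isUnit_iff_isUnit_det]
    rw [hMW, det_mul] at hg
    exact isUnit_of_mul_isUnit_right hg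
  let e : (ι × ι → R) ≃ Matrix ι ι R := (Equiv.curry ι ι R).trans Matrix.of
  have hcomb : ⇑(comb ρ g) = e ∘ M.mulVec := by
    funext c
    ext i j
    simp [comb_apply, e, M, mulVec, dotProduct, Matrix.sum_apply, mul_comm]
  rw [hcomb]
  exact e.bijective.comp
    ⟨Matrix.mulVec_injective_of_isUnit hM, Matrix.mulVec_surjective_iff_isUnit.mpr hM⟩

lemma comb_eq_of_trace_eq {ρ₁ ρ₂ : G →* Matrix ι ι R} {g : ι × ι → G}
    (h : ∀ x, (ρ₁ x).trace = (ρ₂ x).trace) (hg : IsUnit (gram ρ₁ g).det) {x : G}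
    {c : ι × ι → R} (hc : comb ρ₁ g c = ρ₁ x) : comb ρ₂ g c = ρ₂ x := by
  obtain ⟨c', hc'⟩ := (comb_bijective (gram_congr h g ▸ hg)).2 (ρ₂ x)
  rw [← hc']
  congr 1
  apply Matrix.mulVec_injective_of_isUnit ((Matrix.isUnit_iff_isUnit_det _).mpr hg)
  funext a
  conv_rhs => rw [gram_congr h g]
  rw [← trace_mul_comb, ← trace_mul_comb, hc, hc', ← map_mul, ← map_mul, h]

/-- Two representations with the same trace and invertible Gram matrix are related by an algebra
automorphism of the matrix algebra. -/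
lemma exists_linearEquiv_of_trace_eq {ρ₁ ρ₂ : G →* Matrix ι ι R}
    (h : ∀ x, (ρ₁ x).trace = (ρ₂ x).trace) (hgram : HasUnitGram ρ₁) :
    ∃ φ : Matrix ι ι R ≃ₗ[R] Matrix ι ι R,
      (∀ A B, φ (A * B) = φ A * φ B) ∧ ∀ x, φ (ρ₁ x) = ρ₂ x := by
  obtain ⟨g, hg⟩ := hgram
  let e₁ := LinearEquiv.ofBijective (comb ρ₁ g) (comb_bijective hg)
  let e₂ := LinearEquiv.ofBijective (comb ρ₂ g) (comb_bijective (gram_congr h g ▸ hg))
  let φ : Matrix ι ι R ≃ₗ[R] Matrix ι ι R := e₁.symm.trans e₂
  have hφ : ∀ x, φ (ρ₁ x) = ρ₂ x := fun x ↦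
    comb_eq_of_trace_eq h hg (e₁.apply_symm_apply (ρ₁ x))
  refine ⟨φ, fun A B ↦ ?_, hφ⟩
  obtain ⟨a, rfl⟩ := (comb_bijective hg).2 A
  obtain ⟨b, rfl⟩ := (comb_bijective hg).2 B
  simp only [comb_apply, Finset.sum_mul_sum, map_sum, map_smul, smul_mul_assoc, mul_smul_comm,
    hφ, ← map_mul ρ₁, ← map_mul ρ₂]

end CommRing

section LocalRing

variable {R : Type*} [CommRing R] [IsLocalRing R]

/-- **Carayol's lemma**: equal traces and invertible Gram matrix imply conjugacy. -/
theorem exists_conj_of_trace_eq {ρ₁ ρ₂ : G →* Matrix ι ι R}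
    (h : ∀ x, (ρ₁ x).trace = (ρ₂ x).trace) (hgram : HasUnitGram ρ₁) :
    ∃ P : Matrix ι ι R, IsUnit P ∧ ∀ x, ρ₂ x * P = P * ρ₁ x := by
  obtain ⟨φ, hmul, hφ⟩ := exists_linearEquiv_of_trace_eq h hgram
  rcases isEmpty_or_nonempty ι with hι | ⟨⟨i₀⟩⟩
  · exact ⟨1, isUnit_one, fun _ ↦ Subsingleton.elim _ _⟩
  let E : ι → ι → Matrix ι ι R := fun i j ↦ φ (Matrix.single i j 1)
  have hE : ∀ i j k l, E i j * E k l = if j = k then E i l else 0 := by
    intro i j k l
    simp only [E, ← hmul]
    split_ifs with hjk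
    · subst hjk; simp
    · rw [Matrix.single_mul_single_of_ne (h := hjk), map_zero]
  have hsingle : ∀ (f : Matrix ι ι R ≃ₗ[R] Matrix ι ι R) (i j : ι) (r : R),
      f (Matrix.single i j r) = r • f (Matrix.single i j 1) := fun f i j r ↦ by
    rw [← map_smul, Matrix.smul_single, smul_eq_mul, mul_one]
  have hex : ∃ a b, IsUnit (E i₀ i₀ a b) := by
    by_contra! hall
    have hmem : ∀ X : Matrix ι ι R, (∀ a b, X a b ∈ IsLocalRing.maximalIdeal R) →
        ∀ a b, φ.symm X a b ∈ IsLocalRing.maximalIdeal R := by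
      intro X hX a b
      rw [Matrix.matrix_eq_sum_single X, map_sum, Matrix.sum_apply]
      refine sum_mem fun i _ ↦ ?_
      rw [map_sum, Matrix.sum_apply]
      refine sum_mem fun j _ ↦ ?_
      rw [hsingle, Matrix.smul_apply, smul_eq_mul]
      exact Ideal.mul_mem_right _ _ (hX i j)
    have h1 := hmem (E i₀ i₀) (fun a b ↦ hall a b) i₀ i₀
    simp only [E, LinearEquiv.symm_apply_apply, Matrix.single_apply_same] at h1
    exact one_notMem_nonunits h1
  obtain ⟨a, b, hab⟩ := hex
  let P : Matrix ι ι R := Matrix.of fun k i ↦ E i i₀ k b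
  let Q : Matrix ι ι R := Matrix.of fun j k ↦ E i₀ j a k
  have hQP : Q * P = E i₀ i₀ a b • (1 : Matrix ι ι R) := by
    ext j i
    have := congrFun (congrFun (hE i₀ j i i₀) a) b
    rw [mul_apply] at this
    simp only [mul_apply, P, Q, of_apply, Matrix.smul_apply, smul_eq_mul, Matrix.one_apply]
    rw [this]
    split_ifs <;> simp
  have hP : IsUnit P := by
    rw [Matrix.isUnit_iff_isUnit_det]
    refine isUnit_of_mul_isUnit_right (x := Q.det) ?_
    rw [← det_mul, hQP, det_smul, det_one, mul_one]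
    exact hab.pow _
  refine ⟨P, hP, fun x ↦ ?_⟩
  have key : ∀ A, φ A * P = P * A := by
    intro A
    ext k i
    have h1 : φ A * E i i₀ = ∑ r, A r i • E r i₀ := by
      conv_lhs => rw [Matrix.matrix_eq_sum_single A]
      simp only [map_sum, Finset.sum_mul]
      refine Finset.sum_congr rfl fun r _ ↦ ?_
      rw [Finset.sum_eq_single i]
      · rw [hsingle, smul_mul_assoc]
        show A r i • (E r i * E i i₀) = _
        rw [hE, if_pos rfl]
      · intro s _ hs
        rw [hsingle, smul_mul_assoc]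
        show A r s • (E r s * E i i₀) = _
        rw [hE, if_neg hs, smul_zero]
      · simp
    have h2 := congrFun (congrFun h1 k) b
    rw [mul_apply, Matrix.sum_apply] at h2
    simp only [mul_apply, P, of_apply]
    rw [h2]
    simp [Matrix.smul_apply, mul_comm]
  rw [← hφ, key]

/-- The Gram condition may be checked in the residue field. -/
theorem hasUnitGram_of_residue (ρ : G →* Matrix ι ι R)
    (ρbar : G →* Matrix ι ι (IsLocalRing.ResidueField R))
    (h : ∀ x, IsLocalRing.residue R (ρ x).trace = (ρbar x).trace) (hbar : HasUnitGram ρbar) :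
    HasUnitGram ρ := by
  obtain ⟨g, hg⟩ := hbar
  refine ⟨g, ?_⟩
  refine (isUnit_map_iff (IsLocalRing.residue R) _).mp ?_
  rw [RingHom.map_det]
  convert hg using 2
  ext a c
  exact h _

end LocalRing

section Field

variable {K : Type*} [Field K]

/-- If the image of a representation spans the matrix algebra then the Gram matrix of the trace
form is invertible on some family. -/
theorem hasUnitGram_of_span_eq_top (ρ : G →* Matrix ι ι K)
    (h : Submodule.span K (Set.range ρ) = ⊤) : HasUnitGram ρ := by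
  classical
  obtain ⟨t, ht, hspan, hli⟩ := exists_linearIndependent K (Set.range ρ)
  let B : Module.Basis t K (Matrix ι ι K) :=
    Module.Basis.mk hli (by rw [Subtype.range_coe, hspan, h])
  let B' := B.reindex (B.indexEquiv (Matrix.stdBasis K ι ι))
  have hB : ∀ a, B' a ∈ Set.range ρ := fun a ↦ by
    rw [Module.Basis.reindex_apply, Module.Basis.mk_apply]
    exact ht (Subtype.coe_prop _)
  choose g hg using hB
  refine ⟨g, isUnit_iff_ne_zero.mpr fun hdet ↦ ?_⟩
  obtain ⟨v, hv0, hv⟩ := Matrix.exists_mulVec_eq_zero_iff.mpr hdet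
  have hcomb : comb ρ g v = ∑ a, v a • B' a := by simp [comb_apply, hg]
  have hzero : ∀ Y : Matrix ι ι K, (Y * comb ρ g v).trace = 0 := by
    intro Y
    rw [← B'.sum_repr Y, Finset.sum_mul, trace_sum]
    refine Finset.sum_eq_zero fun a _ ↦ ?_
    rw [smul_mul_assoc, trace_smul, ← hg, trace_mul_comb, hv]
    simp
  have hX : comb ρ g v = 0 := by
    ext i j
    have := hzero (Matrix.single j i 1)
    rw [Matrix.trace, Finset.sum_eq_single j] at this
    · simpa using this
    · intro k _ hk
      simp [Matrix.single_mul_apply_of_ne (1 : K) j i k k hk]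
    · simp
  rw [hcomb] at hX
  exact hv0 (funext (Fintype.linearIndependent_iff.mp B'.linearIndependent v hX))

/-- Conversely an invertible Gram matrix forces the image to span. -/
theorem span_eq_top_of_hasUnitGram (ρ : G →* Matrix ι ι K) (h : HasUnitGram ρ) :
    Submodule.span K (Set.range ρ) = ⊤ := by
  obtain ⟨g, hg⟩ := h
  rw [eq_top_iff]
  intro A _
  obtain ⟨c, rfl⟩ := (comb_bijective hg).2 A
  rw [comb_apply]
  exact Submodule.sum_mem _ fun a _ ↦ Submodule.smul_mem _ _ (Submodule.subset_span ⟨_, rfl⟩)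

end Field

end FLTAgent.Carayol
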