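import Fermat.Agent.Carayol.Rep

/-!
An irreducible odd two-dimensional representation in odd characteristic is absolutely irreducible.
-/

set_option autoImplicit false

namespace FLTAgent.Carayol

open Matrix

local notation "Γℚ" => AlgebraicClosure ℚ ≃ₐ[ℚ] AlgebraicClosure ℚ

variable {k : Type} [Field k]

/-- An irreducible representation with an involution of determinant `-1` is absolutely irreducible
when `2 ≠ 0`. -/
theorem isAbsolutelyIrreducible_of_involution (ρ : ResidualGaloisRep k) (h2 : (2 : k) ≠ 0)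
    (hirr : ρ.IsIrreducible) {c : Γℚ} (hc : c * c = 1) (hdet : LinearMap.det (ρ.ρ c) = -1) :
    ρ.IsAbsolutelyIrreducible := by
  set f := ρ.ρ c with hf
  have hff : ∀ x, f (f x) = x := fun x ↦ by
    rw [hf, ← Module.End.mul_apply, ← map_mul, hc, map_one, Module.End.one_apply]
  have hne1 : ∀ s : k, s * s = 1 → f ≠ s • (1 : Module.End k ρ.V) := by
    intro s hs hfs
    rw [hfs, LinearMap.det_smul, ρ.finrank_eq, map_one, mul_one, sq, hs] at hdet
    apply h2
    linear_combination hdet
  have hev : ∀ s : k, s * s = 1 → ∃ u : ρ.V, u ≠ 0 ∧ f u = s • u := by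
    intro s hs
    obtain ⟨x, hx⟩ : ∃ x, f x + s • x ≠ 0 := by
      by_contra! hall
      exact hne1 (-s) (by linear_combination hs) (LinearMap.ext fun x ↦ by
        simpa [neg_smul] using eq_neg_of_add_eq_zero_left (hall x))
    refine ⟨f x + s • x, hx, ?_⟩
    rw [map_add, map_smul, hff, smul_add, smul_smul, hs, one_smul]
    abel
  obtain ⟨u, hu0, hu⟩ := hev 1 (mul_one 1)
  obtain ⟨w, hw0, hw⟩ := hev (-1) (by ring)
  have hli : LinearIndependent k ![u, w] := by
    rw [LinearIndependent.pair_iff]
    intro s t hst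
    have h1 := congrArg f hst
    rw [map_add, map_smul, map_smul, hu, hw, map_zero, one_smul, neg_one_smul, smul_neg,
      ← sub_eq_add_neg] at h1
    have hs : ((2 : k) * s) • u = 0 := by
      rw [mul_smul, two_smul]
      calc s • u + s • u = (s • u + t • w) + (s • u - t • w) := by abel
        _ = 0 := by rw [hst, h1, add_zero]
    have hs0 : s = 0 := by simpa [hu0, h2] using hs
    subst hs0
    simpa [hw0] using hst
  let b : Module.Basis (Fin 2) k ρ.V :=
    basisOfLinearIndependentOfCardEqFinrank hli (by rw [ρ.finrank_eq, Fintype.card_fin])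
  have hb0 : b 0 = u := by simp [b]
  have hb1 : b 1 = w := by simp [b]
  refine isAbsolutelyIrreducible_of_hasUnitGram ρ
    (hasUnitGram_congr (ρ₁ := matHom b ρ.ρ) (fun σ ↦ by rw [resMat, trace_matHom, trace_matHom])
      (hasUnitGram_of_span_eq_top _ ?_))
  set S := Submodule.span k (Set.range (matHom b ρ.ρ)) with hS
  have hmem : ∀ σ, matHom b ρ.ρ σ ∈ S := fun σ ↦ Submodule.subset_span ⟨σ, rfl⟩
  have hC : matHom b ρ.ρ c = Matrix.diagonal ![1, -1] := by
    ext i j
    rw [matHom_apply, LinearMap.toMatrix_apply, ← hf]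
    fin_cases j
    · simp only [Fin.zero_eta, hb0, hu, one_smul]
      rw [← hb0, Module.Basis.repr_self]
      fin_cases i <;> simp [Matrix.diagonal]
    · simp only [Fin.mk_one, hb1, hw]
      rw [← hb1, map_smul, Module.Basis.repr_self]
      fin_cases i <;> simp [Matrix.diagonal]
  have h00 : Matrix.single (0 : Fin 2) (0 : Fin 2) (1 : k) ∈ S := by
    have h := S.smul_mem (2⁻¹ : k) (add_mem (hmem 1) (hmem c))
    rw [map_one, hC] at h
    convert h using 1
    ext i j; fin_cases i <;> fin_cases j <;> simp [Matrix.single] <;> field_simp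
    norm_num
  have h11 : Matrix.single (1 : Fin 2) (1 : Fin 2) (1 : k) ∈ S := by
    have h := S.sub_mem (hmem 1) h00
    rw [map_one] at h
    convert h using 1
    ext i j; fin_cases i <;> fin_cases j <;> simp [Matrix.single]
  have hline : ∀ (i : Fin 2) (j : Fin 2), i ≠ j → ∃ σ, matHom b ρ.ρ σ i j ≠ 0 := by
    intro i j hij
    by_contra! hall
    have hstab : ∀ σ, ∀ x ∈ Submodule.span k {b j}, ρ.ρ σ x ∈ Submodule.span k {b j} := by
      intro σ x hx
      obtain ⟨t, rfl⟩ := Submodule.mem_span_singleton.mp hx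
      rw [map_smul]
      refine Submodule.smul_mem _ _ (Submodule.mem_span_singleton.mpr
        ⟨b.repr (ρ.ρ σ (b j)) j, ?_⟩)
      conv_rhs => rw [← b.sum_repr (ρ.ρ σ (b j))]
      rw [Finset.sum_eq_single j]
      · intro l _ hl
        have hli : l = i := by omega
        subst hli
        rw [show b.repr (ρ.ρ σ (b j)) l = 0 from (LinearMap.toMatrix_apply b b (ρ.ρ σ) l j).symm.trans
          (hall σ), zero_smul]
      · simp
    rcases hirr _ hstab with h | h
    · rw [Submodule.span_singleton_eq_bot] at h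
      exact b.ne_zero j h
    · have h1 := finrank_span_singleton (K := k) (b.ne_zero j)
      rw [h, finrank_top, ρ.finrank_eq] at h1
      exact absurd h1 (by norm_num)
  have hmulmem : ∀ X ∈ S, ∀ Y ∈ S, X * Y ∈ S := by
    intro X hX Y hY
    induction hX, hY using Submodule.span_induction₂ with
    | mem_mem X Y hX hY =>
      obtain ⟨σ, rfl⟩ := hX
      obtain ⟨τ, rfl⟩ := hY
      rw [← map_mul]; exact hmem _
    | zero_left Y _ => simp
    | zero_right X _ => simp
    | add_left X X' Y _ _ _ h h' => rw [add_mul]; exact add_mem h h'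
    | add_right X Y Y' _ _ _ h h' => rw [mul_add]; exact add_mem h h'
    | smul_left r X Y _ _ h => rw [smul_mul_assoc]; exact S.smul_mem r h
    | smul_right r X Y _ _ h => rw [mul_smul_comm]; exact S.smul_mem r h
  have hsingle : ∀ i j : Fin 2, Matrix.single i j (1 : k) ∈ S := by
    intro i j
    rcases eq_or_ne i j with rfl | hij
    · fin_cases i <;> assumption
    obtain ⟨σ, hσ⟩ := hline i j hij
    have hii : ∀ l : Fin 2, Matrix.single l l (1 : k) ∈ S := fun l ↦ by
      fin_cases l <;> assumption
    have := S.smul_mem (matHom b ρ.ρ σ i j)⁻¹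
      (hmulmem _ (hmulmem _ (hii i) _ (hmem σ)) _ (hii j))
    rwa [Matrix.single_mul_mul_single, one_mul, mul_one, Matrix.smul_single, smul_eq_mul,
      inv_mul_cancel₀ hσ] at this
  rw [eq_top_iff]
  intro X _
  rw [Matrix.matrix_eq_sum_single X]
  refine sum_mem fun i _ ↦ sum_mem fun j _ ↦ ?_
  rw [← mul_one (X i j), ← smul_eq_mul, ← Matrix.smul_single]
  exact S.smul_mem _ (hsingle i j)

/-- An irreducible odd representation is absolutely irreducible in odd characteristic, given any
nontrivial involution in the Galois group. -/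
theorem isAbsolutelyIrreducible_of_isOdd (ρ : ResidualGaloisRep k) (h2 : (2 : k) ≠ 0)
    (hirr : ρ.IsIrreducible) (hodd : ρ.IsOdd) {c : Γℚ} (hc : c * c = 1) (hc1 : c ≠ 1) :
    ρ.IsAbsolutelyIrreducible :=
  isAbsolutelyIrreducible_of_involution ρ h2 hirr hc (hodd c hc hc1)

end FLTAgent.Carayol
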