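import Fermat.Agent.Carayol.Gram
import Fermat.Agent.GalRep.Span

/-!
Carayol's lemma and the Brauer–Nesbitt theorem (absolutely irreducible case) for two-dimensional
Galois representations.
-/

set_option autoImplicit false

namespace FLTAgent.Carayol

open Matrix TensorProduct

local notation "Γℚ" => AlgebraicClosure ℚ ≃ₐ[ℚ] AlgebraicClosure ℚ

section Module

variable {ι : Type*} [Fintype ι] [DecidableEq ι] {G : Type*} [Monoid G]
  {R : Type*} [CommRing R] {V : Type*} [AddCommGroup V] [Module R V]

/-- The matrices of a representation with respect to a basis. -/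
noncomputable def matHom (b : Module.Basis ι R V) (ρ : G →* Module.End R V) :
    G →* Matrix ι ι R :=
  (MonoidHomClass.toMonoidHom (LinearMap.toMatrixAlgEquiv b)).comp ρ

lemma matHom_apply (b : Module.Basis ι R V) (ρ : G →* Module.End R V) (g : G) :
    matHom b ρ g = LinearMap.toMatrix b b (ρ g) := rfl

lemma trace_matHom (b : Module.Basis ι R V) (ρ : G →* Module.End R V) (g : G) :
    (matHom b ρ g).trace = LinearMap.trace R V (ρ g) := by
  classical
  exact (LinearMap.trace_eq_matrix_trace R b (ρ g)).symm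

/-- Carayol's lemma for representations on free modules over a local ring. -/
theorem exists_linearEquiv_of_trace_eq' [IsLocalRing R] {W : Type*} [AddCommGroup W] [Module R W]
    (b : Module.Basis ι R V) (c : Module.Basis ι R W) (ρ : G →* Module.End R V)
    (σ : G →* Module.End R W) (h : ∀ g, LinearMap.trace R V (ρ g) = LinearMap.trace R W (σ g))
    (hgram : HasUnitGram (matHom b ρ)) :
    ∃ e : V ≃ₗ[R] W, ∀ g v, e (ρ g v) = σ g (e v) := by
  obtain ⟨P, hP, hPx⟩ := exists_conj_of_trace_eq (ρ₁ := matHom b ρ) (ρ₂ := matHom c σ)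
    (fun g ↦ by rw [trace_matHom, trace_matHom, h]) hgram
  obtain ⟨P, rfl⟩ := hP
  let e : V ≃ₗ[R] W := LinearEquiv.ofLinearMap (Matrix.toLin b c (P : Matrix ι ι R))
    (Matrix.toLin c b ((P⁻¹ : (Matrix ι ι R)ˣ) : Matrix ι ι R))
    (by rw [← Matrix.toLin_mul c b c, ← Units.val_mul, mul_inv_cancel, Units.val_one,
      Matrix.toLin_one])
    (by rw [← Matrix.toLin_mul b c b, ← Units.val_mul, inv_mul_cancel, Units.val_one,
      Matrix.toLin_one])
  refine ⟨e, fun g v ↦ ?_⟩
  have key : (Matrix.toLin b c (P : Matrix ι ι R)).comp (ρ g) =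
      (σ g).comp (Matrix.toLin b c (P : Matrix ι ι R)) := by
    apply (LinearMap.toMatrix b c).injective
    rw [LinearMap.toMatrix_comp b b c, LinearMap.toMatrix_comp b c c, LinearMap.toMatrix_toLin]
    exact (hPx g).symm
  exact LinearMap.congr_fun key v

end Module

section Residual

variable {k : Type} [Field k]

/-- A basis of the space of a residual representation. -/
noncomputable def resBasis (ρ : ResidualGaloisRep k) : Module.Basis (Fin 2) k ρ.V :=
  Module.finBasisOfFinrankEq k ρ.V ρ.finrank_eq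

/-- The matrices of a residual representation. -/
noncomputable def resMat (ρ : ResidualGaloisRep k) : Γℚ →* Matrix (Fin 2) (Fin 2) k :=
  matHom (resBasis ρ) ρ.ρ

lemma matHom_baseChange (ρ : ResidualGaloisRep k) (K : Type) [Field K] [Algebra k K] (g : Γℚ) :
    matHom (Algebra.TensorProduct.basis K (resBasis ρ)) (ρ.baseChange K).ρ g =
      (resMat ρ g).map (algebraMap k K) :=
  LinearMap.toMatrix_baseChange (A := K) (ρ.ρ g) (resBasis ρ) (resBasis ρ)

lemma gram_baseChange (ρ : ResidualGaloisRep k) (K : Type) [Field K] [Algebra k K]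
    (g : Fin 2 × Fin 2 → Γℚ) :
    gram (matHom (Algebra.TensorProduct.basis K (resBasis ρ)) (ρ.baseChange K).ρ) g =
      (gram (resMat ρ) g).map (algebraMap k K) := by
  ext a b
  show (matHom (Algebra.TensorProduct.basis K (resBasis ρ)) (ρ.baseChange K).ρ (g a * g b)).trace =
    algebraMap k K (resMat ρ (g a * g b)).trace
  rw [matHom_baseChange, ← AddMonoidHom.map_trace]

/-- An absolutely irreducible representation has nondegenerate trace form. -/
theorem hasUnitGram_of_isAbsolutelyIrreducible (ρ : ResidualGaloisRep k)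
    (h : ρ.IsAbsolutelyIrreducible) : HasUnitGram (resMat ρ) := by
  let K := AlgebraicClosure k
  have : Nontrivial (ρ.baseChange K).V :=
    Module.nontrivial_of_finrank_eq_succ (ρ.baseChange K).finrank_eq
  have hK := GalRep.span_range_eq_top_of_irreducible (ρ.baseChange K).ρ h
  let bK := Algebra.TensorProduct.basis K (resBasis ρ)
  have hspan : Submodule.span K (Set.range (matHom bK (ρ.baseChange K).ρ)) = ⊤ := by
    have := congrArg (Submodule.map (LinearMap.toMatrix bK bK).toLinearMap) hK
    rw [Submodule.map_span, Submodule.map_top, LinearEquiv.range, ← Set.range_comp] at this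
    exact this
  obtain ⟨g, hg⟩ := hasUnitGram_of_span_eq_top _ hspan
  refine ⟨g, ?_⟩
  rw [gram_baseChange] at hg
  rw [isUnit_iff_ne_zero] at hg ⊢
  intro h0
  apply hg
  rw [← RingHom.mapMatrix_apply, ← RingHom.map_det, h0, map_zero]

/-- A representation with nondegenerate trace form is absolutely irreducible. -/
theorem isAbsolutelyIrreducible_of_hasUnitGram (ρ : ResidualGaloisRep k)
    (h : HasUnitGram (resMat ρ)) : ρ.IsAbsolutelyIrreducible := by
  obtain ⟨g, hg⟩ := h
  let K := AlgebraicClosure k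
  let bK := Algebra.TensorProduct.basis K (resBasis ρ)
  have hspan : Submodule.span K (Set.range (matHom bK (ρ.baseChange K).ρ)) = ⊤ := by
    refine span_eq_top_of_hasUnitGram _ ⟨g, ?_⟩
    rw [gram_baseChange, ← RingHom.mapMatrix_apply, ← RingHom.map_det]
    exact hg.map _
  intro W hW
  rcases eq_or_ne W ⊥ with h0 | h0
  · exact Or.inl h0
  refine Or.inr (eq_top_iff.mpr fun y _ ↦ ?_)
  obtain ⟨x, hxW, hx⟩ := Submodule.exists_mem_ne_zero_of_ne_bot h0
  have hall : ∀ f : Module.End K (ρ.baseChange K).V, f x ∈ W := by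
    intro f
    have hf : LinearMap.toMatrixAlgEquiv bK f ∈
        Submodule.span K (Set.range (matHom bK (ρ.baseChange K).ρ)) :=
      hspan ▸ Submodule.mem_top
    generalize hM : LinearMap.toMatrixAlgEquiv bK f = M at hf
    induction hf using Submodule.span_induction generalizing f with
    | mem M hM' =>
      obtain ⟨σ, rfl⟩ := hM'
      rw [(LinearMap.toMatrixAlgEquiv bK).injective hM]
      exact hW σ x hxW
    | zero =>
      rw [(LinearMap.toMatrixAlgEquiv bK).injective (hM.trans (map_zero _).symm)]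
      exact W.zero_mem
    | add M N _ _ ihM ihN =>
      have : f = (LinearMap.toMatrixAlgEquiv bK).symm M + (LinearMap.toMatrixAlgEquiv bK).symm N := by
        rw [← map_add, ← hM, AlgEquiv.symm_apply_apply]
      rw [this]
      exact W.add_mem (ihM _ (AlgEquiv.apply_symm_apply _ _))
        (ihN _ (AlgEquiv.apply_symm_apply _ _))
    | smul c M _ ih =>
      have : f = c • (LinearMap.toMatrixAlgEquiv bK).symm M := by
        rw [← map_smul, ← hM, AlgEquiv.symm_apply_apply]
      rw [this]
      exact W.smul_mem c (ih _ (AlgEquiv.apply_symm_apply _ _))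
  obtain ⟨φ, hφ⟩ := Module.Projective.exists_dual_ne_zero K hx
  have := hall (LinearMap.smulRight φ ((φ x)⁻¹ • y))
  simpa [smul_smul, hφ] using this

/-- Absolute irreducibility only depends on the trace. -/
theorem isAbsolutelyIrreducible_of_trace_eq {ρ₁ ρ₂ : ResidualGaloisRep k}
    (h : ρ₁.IsAbsolutelyIrreducible)
    (htr : ∀ σ, LinearMap.trace k ρ₁.V (ρ₁.ρ σ) = LinearMap.trace k ρ₂.V (ρ₂.ρ σ)) :
    ρ₂.IsAbsolutelyIrreducible :=
  isAbsolutelyIrreducible_of_hasUnitGram ρ₂ <|
    hasUnitGram_congr (fun σ ↦ by rw [resMat, resMat, trace_matHom, trace_matHom, htr])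
      (hasUnitGram_of_isAbsolutelyIrreducible ρ₁ h)

/-- **Brauer–Nesbitt**: an absolutely irreducible representation is determined by its trace. -/
theorem residual_isEquiv_of_trace_eq {ρ₁ ρ₂ : ResidualGaloisRep k}
    (h : ρ₁.IsAbsolutelyIrreducible)
    (htr : ∀ σ, LinearMap.trace k ρ₁.V (ρ₁.ρ σ) = LinearMap.trace k ρ₂.V (ρ₂.ρ σ)) :
    ρ₁.IsEquiv ρ₂ := by
  obtain ⟨e, he⟩ := exists_linearEquiv_of_trace_eq' (resBasis ρ₁) (resBasis ρ₂) ρ₁.ρ ρ₂.ρ htr
    (hasUnitGram_of_isAbsolutelyIrreducible ρ₁ h)
  exact ⟨⟨e, he⟩⟩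

end Residual

section Adic

variable {A : Type} [CommRing A] [IsLocalRing A]

/-- A residually absolutely irreducible representation has invertible Gram matrix. -/
theorem hasUnitGram_of_residual (ρ : GaloisRepAdic A) (h : ρ.residual.IsAbsolutelyIrreducible) :
    HasUnitGram (matHom (GalRep.repBasis ρ) ρ.ρ) := by
  refine hasUnitGram_of_residue _ (resMat ρ.residual) (fun σ ↦ ?_)
    (hasUnitGram_of_isAbsolutelyIrreducible _ h)
  rw [resMat, trace_matHom, trace_matHom]
  exact (LinearMap.trace_baseChange (ρ.ρ σ) (IsLocalRing.ResidueField A)).symm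

/-- **Carayol's lemma**: a residually absolutely irreducible representation over a local ring is
determined by its trace. -/
theorem isEquiv_of_trace_eq {ρ₁ ρ₂ : GaloisRepAdic A} (h : ρ₁.residual.IsAbsolutelyIrreducible)
    (htr : ∀ σ, ρ₁.trace σ = ρ₂.trace σ) : ρ₁.IsEquiv ρ₂ := by
  obtain ⟨e, he⟩ := exists_linearEquiv_of_trace_eq' (GalRep.repBasis ρ₁) (GalRep.repBasis ρ₂)
    ρ₁.ρ ρ₂.ρ htr (hasUnitGram_of_residual ρ₁ h)
  exact ⟨⟨e, he⟩⟩

end Adic

end FLTAgent.Carayol
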